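import Mathlib

/-!
# Function fields of one variable: finiteness over any transcendental element

Mathlib-only field theory used for P-ES / ES-C1-FIN.

* `isAlgebraic_adjoin_simple_swap` : exchange lemma; if `y` is transcendental over `L` and
  algebraic over `L(x)`, then `x` is algebraic over `L(y)`.
* `finiteDimensional_adjoin_simple_of_transcendental` : if `F` is finite over `L(x)` and `y ∈ F`
  is transcendental over `L`, then `F` is finite over `L(y)`.
* `finite_along_of_transcendental` : if moreover `φ : K →ₐ[L] F` and `t ∈ K` is transcendental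
  over `L`, then `F` is finite over `K` along `φ`.
-/

set_option autoImplicit false
set_option linter.style.haveILetI false

open IntermediateField

namespace Fermat.Agent.H54

variable {L F : Type*} [Field L] [Field F] [Algebra L F]

/-- **Exchange lemma.** -/
theorem isAlgebraic_adjoin_simple_swap {x y : F} (hy : Transcendental L y)
    (hyx : IsAlgebraic L⟮x⟯ y) : IsAlgebraic L⟮y⟯ x := by
  by_contra hx
  have hx' : Transcendental (Algebra.adjoin L ({y} : Set F)) x :=
    IntermediateField.transcendental_adjoin_iff.mp hx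
  by_cases hxy : x = y
  · subst hxy
    exact hx (isAlgebraic_algebraMap (⟨x, mem_adjoin_simple_self L x⟩ : L⟮x⟯))
  have h1 : AlgebraicIndepOn L (id : F → F) ({y} : Set F) := by
    rw [AlgebraicIndepOn]
    haveI : Unique ({y} : Set F) := Set.uniqueSingleton y
    exact (algebraicIndependent_singleton_iff (⟨y, rfl⟩ : ({y} : Set F))).mpr hy
  have h2 : AlgebraicIndepOn L (id : F → F) (insert x ({y} : Set F)) := by
    refine (AlgebraicIndepOn.insert_iff (by simpa using hxy)).mpr ⟨h1, ?_⟩
    rw [Set.image_id]
    exact hx'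
  rw [Set.pair_comm] at h2
  have h3 := ((AlgebraicIndepOn.insert_iff (by simpa using Ne.symm hxy)).mp h2).2
  have h4 : Transcendental (Algebra.adjoin L ({x} : Set F)) y := by
    rw [Set.image_id] at h3
    exact h3
  exact (IntermediateField.transcendental_adjoin_iff.mpr h4) hyx

/-- Integrality over an intermediate field passes to any larger subfield (over a possibly
different base). -/
theorem isIntegral_of_adjoin_le {L' : Type*} [Field L'] [Algebra L' F]
    (K₁ : IntermediateField L F) (K₂ : IntermediateField L' F)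
    (h : ∀ a ∈ K₁, a ∈ K₂) {f : F} (hf : IsIntegral K₁ f) : IsIntegral K₂ f := by
  let φ : K₁ →+* K₂ :=
    { toFun := fun a => ⟨a.1, h a.1 a.2⟩
      map_one' := rfl
      map_mul' := fun _ _ => rfl
      map_zero' := rfl
      map_add' := fun _ _ => rfl }
  have := IsIntegral.map_of_comp_eq φ (RingHom.id F) (by ext; rfl) hf
  simpa using this

/-- If `F` is finite over `L(x)` and `y ∈ F` is transcendental over `L`, then `F` is finite over
`L(y)`. -/
theorem finiteDimensional_adjoin_simple_of_transcendental {x y : F}
    (hfin : FiniteDimensional L⟮x⟯ F) (hy : Transcendental L y) :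
    FiniteDimensional L⟮y⟯ F := by
  haveI := hfin
  -- `F` is essentially of finite type over `L`, hence over `L(y)`
  haveI h1 : Algebra.EssFiniteType L L⟮x⟯ :=
    IntermediateField.essFiniteType_iff.mpr
      (IntermediateField.fg_adjoin_of_finite (Set.finite_singleton x))
  haveI h2 : Algebra.EssFiniteType L⟮x⟯ F := inferInstance
  haveI h3 : Algebra.EssFiniteType L F := Algebra.EssFiniteType.comp L L⟮x⟯ F
  haveI h4 : Algebra.EssFiniteType L⟮y⟯ F := Algebra.EssFiniteType.of_comp L L⟮y⟯ F
  -- `F` is algebraic over `L(y)`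
  have hyx : IsAlgebraic L⟮x⟯ y := Algebra.IsAlgebraic.isAlgebraic y
  have hxy : IsAlgebraic L⟮y⟯ x := isAlgebraic_adjoin_simple_swap hy hyx
  haveI h5 : Algebra.IsAlgebraic L⟮y⟯ (L⟮y⟯⟮x⟯) :=
    IntermediateField.isAlgebraic_adjoin_simple hxy.isIntegral
  haveI h6 : Algebra.IsAlgebraic (L⟮y⟯⟮x⟯) F := by
    refine ⟨fun f => ?_⟩
    have hf : IsIntegral L⟮x⟯ f := (Algebra.IsAlgebraic.isAlgebraic f).isIntegral
    refine (isIntegral_of_adjoin_le L⟮x⟯ (L⟮y⟯⟮x⟯) ?_ hf).isAlgebraic
    intro a ha
    have hle : L⟮x⟯ ≤ (L⟮y⟯⟮x⟯).restrictScalars L := by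
      rw [IntermediateField.adjoin_le_iff]
      intro b hb
      rw [Set.mem_singleton_iff] at hb
      rw [hb]
      exact (IntermediateField.mem_restrictScalars L).mpr (mem_adjoin_simple_self L⟮y⟯ x)
    exact (IntermediateField.mem_restrictScalars L).mp (hle ha)
  haveI h7 : Algebra.IsAlgebraic L⟮y⟯ F := Algebra.IsAlgebraic.trans L⟮y⟯ (L⟮y⟯⟮x⟯) F
  exact Algebra.finite_of_essFiniteType_of_isAlgebraic

/-- If `F` is finite over `L(x)`, `φ : K →ₐ[L] F` and `K` contains an element transcendental
over `L`, then `F` is finite over `K` along `φ`. -/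
theorem finite_along_of_transcendental {K : Type*} [Field K] [Algebra L K] (φ : K →ₐ[L] F)
    {t : K} (ht : Transcendental L t) {x : F} (hfin : FiniteDimensional L⟮x⟯ F) :
    letI := φ.toRingHom.toAlgebra
    Module.Finite K F := by
  letI := φ.toRingHom.toAlgebra
  have hy : Transcendental L (φ t) := by
    intro h
    exact ht ((isAlgebraic_algHom_iff φ φ.injective).mp h)
  have hfin' : FiniteDimensional L⟮φ t⟯ F :=
    finiteDimensional_adjoin_simple_of_transcendental hfin hy
  obtain ⟨S, hS⟩ := Module.finite_def.mp hfin'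
  refine ⟨⟨S, ?_⟩⟩
  rw [eq_top_iff]
  rintro f -
  have hf : f ∈ Submodule.span L⟮φ t⟯ (S : Set F) := hS ▸ Submodule.mem_top
  have hle : L⟮φ t⟯ ≤ φ.fieldRange := by
    rw [IntermediateField.adjoin_le_iff]
    intro b hb
    rw [Set.mem_singleton_iff] at hb
    rw [hb]
    exact ⟨t, rfl⟩
  induction hf using Submodule.span_induction with
  | mem v hv => exact Submodule.subset_span hv
  | zero => exact zero_mem _
  | add u v _ _ hu hv => exact add_mem hu hv
  | smul c v _ hv =>
      obtain ⟨k, hk⟩ := hle c.2
      have hcv : c • v = k • v := by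
        rw [Algebra.smul_def, Algebra.smul_def]
        congr 1
        exact hk.symm
      rw [hcv]
      exact Submodule.smul_mem _ _ hv

/-- A subfield `F` of `E` generated over `L` by finitely many elements which are algebraic over
`L(x)`, `x ∈ F`, is finite over `L(x)`. -/
theorem finiteDimensional_adjoin_simple_of_generators {E : Type*} [Field E] [Algebra L E]
    (F₁ : IntermediateField L E) (x : F₁) (T : Set E) (hT : T.Finite)
    (hF : F₁ = IntermediateField.adjoin L T) (halg : ∀ t ∈ T, IsAlgebraic L⟮x⟯ t) :
    FiniteDimensional L⟮x⟯ F₁ := by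
  subst hF
  haveI h1 : Algebra.EssFiniteType L ↥(IntermediateField.adjoin L T) :=
    IntermediateField.essFiniteType_iff.mpr (IntermediateField.fg_adjoin_of_finite hT)
  haveI h2 : Algebra.EssFiniteType L⟮x⟯ ↥(IntermediateField.adjoin L T) :=
    Algebra.EssFiniteType.of_comp L L⟮x⟯ _
  haveI h3 : Algebra.IsAlgebraic L⟮x⟯ ↥(IntermediateField.adjoin L T) := by
    refine ⟨fun f => ?_⟩
    have key : ∀ y : E, y ∈ IntermediateField.adjoin L T → IsAlgebraic L⟮x⟯ y := by
      intro y hy
      induction hy using IntermediateField.adjoin_induction with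
      | mem t ht => exact halg t ht
      | algebraMap c =>
          exact isAlgebraic_algebraMap (R := L⟮x⟯) (A := E)
            (⟨algebraMap L ↥(IntermediateField.adjoin L T) c,
              (L⟮x⟯).algebraMap_mem c⟩ : L⟮x⟯)
      | add a b _ _ iha ihb => exact iha.add ihb
      | inv a _ iha => exact iha.inv
      | mul a b _ _ iha ihb => exact iha.mul ihb
    exact (isAlgebraic_algebraMap_iff
      (algebraMap ↥(IntermediateField.adjoin L T) E).injective).mp (key f.1 f.2)
  exact Algebra.finite_of_essFiniteType_of_isAlgebraic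

end Fermat.Agent.H54
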