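import Fermat.Agent.H21.EsC.Interfaces
import Fermat.Agent.H54.EsC.FieldFinite
import Fermat.Agent.H88.Generation
import Fermat.Agent.H17.HeckeDataComplex
import Fermat.Agent.H74.IgusaPolyJ

/-!
# P-ES / ES-C1-FIN: the function field of `X₀(M)` over `L` and the degeneracy maps

* `isFunctionField L : IsFunctionFieldStatement L` : `F_M(L) = laurentBaseChange L
  (modularFunctionFieldFull M)` is finite over `L(j)` and `j` is transcendental over `L`.
* `degeneracyFinite L : DegeneracyFiniteStatement L` : `F_{Nℓ}(L)` is finite over `F_N(L)` along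
  both degeneracy maps `α` (inclusion) and `β` (`q ↦ q^ℓ`).

for every field `L` with `[Algebra ℚ L]`.
-/

set_option autoImplicit false
set_option linter.style.haveILetI false
set_option linter.unusedSectionVars false

noncomputable section

open ModularCurve IntermediateField AlgebraicCurve

namespace Fermat.Agent.H54

variable (L : Type) [Field L] [Algebra ℚ L]

theorem coeffEmb_jq_eq : coeffEmb L jq = jqModC L := by
  rw [coeffEmb, ← jqModC_rat, coeffMap_jqModC]

theorem coeffEmb_algebraMap_rat (c : ℚ) :
    coeffEmb L (algebraMap ℚ (LaurentSeries ℚ) c) =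
      algebraMap L (LaurentSeries L) (algebraMap ℚ L c) := by
  rw [algebraMap_laurentSeries_eq_single, algebraMap_laurentSeries_eq_single, coeffEmb,
    coeffMap_single]

variable (M : ℕ) [NeZero M]

/-- `j` lies in the function field of `X₀(M)` over `L`. -/
theorem jqModC_mem_laurentBaseChange :
    jqModC L ∈ laurentBaseChange L (modularFunctionFieldFull M) := by
  rw [← coeffEmb_jq_eq]
  refine coeffEmb_mem_laurentBaseChange L ?_
  have h := jqd_mem_full M (one_dvd M)
  rwa [qExpand_one_apply] at h

/-- `j` as an element of the function field of `X₀(M)` over `L`. -/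
def jElt : ↥(laurentBaseChange L (modularFunctionFieldFull M)) :=
  ⟨jqModC L, jqModC_mem_laurentBaseChange L M⟩

theorem transcendental_jElt : Transcendental L (jElt L M) := by
  intro h
  refine Fermat.Agent.H74.transcendental_jq L ?_
  have := (isAlgebraic_algebraMap_iff
    (algebraMap ↥(laurentBaseChange L (modularFunctionFieldFull M))
      (LaurentSeries L)).injective).mpr h
  exact this

/-- Base change maps `ℚ(j)` into `L(j)` (inside the function field of `X₀(M)` over `L`). -/
theorem exists_mem_adjoin_jElt {a : LaurentSeries ℚ}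
    (ha : a ∈ (ℚ⟮jq⟯ : IntermediateField ℚ (LaurentSeries ℚ))) :
    ∃ h : coeffEmb L a ∈ laurentBaseChange L (modularFunctionFieldFull M),
      (⟨coeffEmb L a, h⟩ : ↥(laurentBaseChange L (modularFunctionFieldFull M))) ∈
        L⟮jElt L M⟯ := by
  induction ha using IntermediateField.adjoin_induction with
  | mem x hx =>
      rw [Set.mem_singleton_iff] at hx
      subst hx
      have h1 : coeffEmb L jq ∈ laurentBaseChange L (modularFunctionFieldFull M) := by
        rw [coeffEmb_jq_eq]
        exact jqModC_mem_laurentBaseChange L M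
      refine ⟨h1, ?_⟩
      have h2 : (⟨coeffEmb L jq, h1⟩ : ↥(laurentBaseChange L (modularFunctionFieldFull M))) =
          jElt L M := Subtype.ext (coeffEmb_jq_eq L)
      rw [h2]
      exact mem_adjoin_simple_self L _
  | algebraMap c =>
      have h1 : coeffEmb L (algebraMap ℚ (LaurentSeries ℚ) c) ∈
          laurentBaseChange L (modularFunctionFieldFull M) := by
        rw [coeffEmb_algebraMap_rat]
        exact (laurentBaseChange L (modularFunctionFieldFull M)).algebraMap_mem _
      refine ⟨h1, ?_⟩
      have h2 : (⟨coeffEmb L (algebraMap ℚ (LaurentSeries ℚ) c), h1⟩ :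
          ↥(laurentBaseChange L (modularFunctionFieldFull M))) =
          algebraMap L ↥(laurentBaseChange L (modularFunctionFieldFull M))
            (algebraMap ℚ L c) := Subtype.ext (coeffEmb_algebraMap_rat L c)
      rw [h2]
      exact (L⟮jElt L M⟯).algebraMap_mem _
  | add x y hx hy ihx ihy =>
      obtain ⟨h1, h1'⟩ := ihx
      obtain ⟨h2, h2'⟩ := ihy
      have h3 : coeffEmb L (x + y) ∈ laurentBaseChange L (modularFunctionFieldFull M) := by
        rw [map_add]
        exact add_mem h1 h2
      refine ⟨h3, ?_⟩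
      have h4 : (⟨coeffEmb L (x + y), h3⟩ :
          ↥(laurentBaseChange L (modularFunctionFieldFull M))) =
          ⟨coeffEmb L x, h1⟩ + ⟨coeffEmb L y, h2⟩ := Subtype.ext (map_add _ _ _)
      rw [h4]
      exact add_mem h1' h2'
  | inv x hx ihx =>
      obtain ⟨h1, h1'⟩ := ihx
      have h3 : coeffEmb L x⁻¹ ∈ laurentBaseChange L (modularFunctionFieldFull M) := by
        rw [map_inv₀]
        exact inv_mem h1
      refine ⟨h3, ?_⟩
      have h4 : (⟨coeffEmb L x⁻¹, h3⟩ :
          ↥(laurentBaseChange L (modularFunctionFieldFull M))) =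
          (⟨coeffEmb L x, h1⟩ : ↥(laurentBaseChange L (modularFunctionFieldFull M)))⁻¹ :=
        Subtype.ext (map_inv₀ _ _)
      rw [h4]
      exact inv_mem h1'
  | mul x y hx hy ihx ihy =>
      obtain ⟨h1, h1'⟩ := ihx
      obtain ⟨h2, h2'⟩ := ihy
      have h3 : coeffEmb L (x * y) ∈ laurentBaseChange L (modularFunctionFieldFull M) := by
        rw [map_mul]
        exact mul_mem h1 h2
      refine ⟨h3, ?_⟩
      have h4 : (⟨coeffEmb L (x * y), h3⟩ :
          ↥(laurentBaseChange L (modularFunctionFieldFull M))) =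
          ⟨coeffEmb L x, h1⟩ * ⟨coeffEmb L y, h2⟩ := Subtype.ext (map_mul _ _ _)
      rw [h4]
      exact mul_mem h1' h2'

/-- The ring homomorphism `ℚ(j) → L(j)` induced by base change of coefficients. -/
def adjoinJHom : (ℚ⟮jq⟯ : IntermediateField ℚ (LaurentSeries ℚ)) →+* L⟮jElt L M⟯ where
  toFun a := ⟨⟨coeffEmb L a.1, (exists_mem_adjoin_jElt L M a.2).1⟩,
    (exists_mem_adjoin_jElt L M a.2).2⟩
  map_one' := Subtype.ext (Subtype.ext (map_one (coeffEmb L)))
  map_mul' a b := Subtype.ext (Subtype.ext (map_mul (coeffEmb L) a.1 b.1))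
  map_zero' := Subtype.ext (Subtype.ext (map_zero (coeffEmb L)))
  map_add' a b := Subtype.ext (Subtype.ext (map_add (coeffEmb L) a.1 b.1))

/-- Every `j(q^d)` over `L` is integral over `L(j)`. -/
theorem isIntegral_coeffEmb_jd (d : ℕ) (hd : d ≠ 0) :
    IsIntegral L⟮jElt L M⟯ (coeffEmb L (Fermat.Agent.H88.jd ℚ d)) := by
  have h := Fermat.Agent.H88.isIntegral_jd Fermat.Agent.H17.hasHeckeData_complex
    (ℚ⟮jq⟯ : IntermediateField ℚ (LaurentSeries ℚ)) (mem_adjoin_simple_self ℚ jq) d hd
  exact IsIntegral.map_of_comp_eq (adjoinJHom L M) (coeffEmb L) (by ext; rfl) h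

/-- The finite generating set `{j(q^d) : d ∣ M}` of the function field of `X₀(M)` over `L`. -/
def jdSet : Set (LaurentSeries L) :=
  (fun d => coeffEmb L (Fermat.Agent.H88.jd ℚ d)) '' (Nat.divisors M : Set ℕ)

theorem jdSet_finite : (jdSet L M).Finite :=
  Set.Finite.image _ (Finset.finite_toSet _)

theorem coeffEmb_mem_adjoin_jdSet {y : LaurentSeries ℚ}
    (hy : y ∈ modularFunctionFieldFull M) :
    coeffEmb L y ∈ IntermediateField.adjoin L (jdSet L M) := by
  rw [modularFunctionFieldFull] at hy
  induction hy using IntermediateField.adjoin_induction with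
  | mem x hx =>
      obtain ⟨d, hne, hdvd, rfl⟩ := hx
      haveI := hne
      refine IntermediateField.subset_adjoin L _ ?_
      refine ⟨d, ?_, ?_⟩
      · rw [Finset.mem_coe, Nat.mem_divisors]
        exact ⟨hdvd, NeZero.ne M⟩
      · show coeffEmb L (Fermat.Agent.H88.jd ℚ d) = _
        rw [Fermat.Agent.H88.jd_rat]
  | algebraMap c =>
      rw [coeffEmb_algebraMap_rat]
      exact IntermediateField.algebraMap_mem _ _
  | add x y hx hy ihx ihy =>
      rw [map_add]
      exact add_mem ihx ihy
  | inv x hx ihx =>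
      rw [map_inv₀]
      exact inv_mem ihx
  | mul x y hx hy ihx ihy =>
      rw [map_mul]
      exact mul_mem ihx ihy

/-- The function field of `X₀(M)` over `L` is generated over `L` by the `j(q^d)`, `d ∣ M`. -/
theorem laurentBaseChange_eq_adjoin_jdSet :
    laurentBaseChange L (modularFunctionFieldFull M) =
      IntermediateField.adjoin L (jdSet L M) := by
  apply le_antisymm
  · rw [laurentBaseChange, IntermediateField.adjoin_le_iff]
    rintro _ ⟨y, hy, rfl⟩
    exact coeffEmb_mem_adjoin_jdSet L M hy
  · rw [IntermediateField.adjoin_le_iff]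
    rintro _ ⟨d, hd, rfl⟩
    rw [Finset.mem_coe, Nat.mem_divisors] at hd
    haveI : NeZero d := ⟨fun h => hd.2 (by rw [h] at hd; exact zero_dvd_iff.mp hd.1)⟩
    refine coeffEmb_mem_laurentBaseChange L ?_
    rw [Fermat.Agent.H88.jd_rat]
    exact jqd_mem_full M hd.1

/-- The function field of `X₀(M)` over `L` is finite over `L(j)`. -/
theorem finiteDimensional_adjoin_jElt :
    FiniteDimensional L⟮jElt L M⟯ ↥(laurentBaseChange L (modularFunctionFieldFull M)) := by
  refine finiteDimensional_adjoin_simple_of_generators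
    (laurentBaseChange L (modularFunctionFieldFull M)) (jElt L M) (jdSet L M)
    (jdSet_finite L M) (laurentBaseChange_eq_adjoin_jdSet L M) ?_
  rintro _ ⟨d, hd, rfl⟩
  rw [Finset.mem_coe, Nat.mem_divisors] at hd
  have hd0 : d ≠ 0 := fun h => hd.2 (by rw [h] at hd; exact zero_dvd_iff.mp hd.1)
  exact (isIntegral_coeffEmb_jd L M d hd0).isAlgebraic

/-- **ES-C1-FF.**  The function field of `X₀(M)` over `L` is a function field of one variable. -/
theorem isFunctionField : Fermat.Agent.H21.EsC.IsFunctionFieldStatement L :=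
  fun M _ => ⟨jElt L M, transcendental_jElt L M, finiteDimensional_adjoin_jElt L M⟩

/-- **ES-C1-FIN.**  Both degeneracy maps are finite. -/
theorem degeneracyFinite : Fermat.Agent.H21.EsC.DegeneracyFiniteStatement L := by
  intro N ℓ _ _ _
  exact ⟨finite_along_of_transcendental (heckeAlphaBar L N ℓ) (transcendental_jElt L N)
      (finiteDimensional_adjoin_jElt L (N * ℓ)),
    finite_along_of_transcendental (heckeBetaBar L N ℓ) (transcendental_jElt L N)
      (finiteDimensional_adjoin_jElt L (N * ℓ))⟩

end Fermat.Agent.H54
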